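import Mathlib.Computability.RecursiveIn
import Mathlib.Computability.Primrec.List

/-!
# The use principle

A function recursive in a total oracle is computed by a primitive recursive map on initial segments
of the oracle. An answer for a segment persists on every longer segment, so it also depends on the
segment only.
-/

set_option autoImplicit false

namespace FA.FriedbergMuchnik

/-- The least number below `n` with a property, or `n`. -/
def first (n : ℕ) (p : ℕ → Bool) : ℕ :=
  (List.range n).findIdx p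

theorem first_le (n : ℕ) (p : ℕ → Bool) : first n p ≤ n :=
  List.findIdx_le_length.trans_eq List.length_range

theorem first_spec {n : ℕ} {p : ℕ → Bool} (h : first n p < n) : p (first n p) = true := by
  have h' : (List.range n).findIdx p < (List.range n).length := by simpa [first] using h
  simpa [first] using List.findIdx_getElem (w := h')

theorem not_of_lt_first {n j : ℕ} {p : ℕ → Bool} (h : j < first n p) : p j = false := by
  simpa [first] using List.not_of_lt_findIdx h

theorem first_le_of_spec {n j : ℕ} {p : ℕ → Bool} (h : p j = true) : first n p ≤ j :=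
  not_lt.1 fun hlt => by simp [not_of_lt_first hlt] at h

theorem primrec_first {α : Type*} [Primcodable α] {f : α → ℕ} {p : α → ℕ → Bool}
    (hf : Primrec f) (hp : Primrec₂ p) : Primrec fun a => first (f a) (p a) :=
  Primrec.list_findIdx (Primrec.list_range.comp hf) hp

/-- The initial segment of length `k` of an oracle. -/
def initSeg (g : ℕ → ℕ) (k : ℕ) : List ℕ :=
  (List.range k).map g

/-- An evaluation on initial segments computes a function from an oracle. -/
structure Evaluates (g : ℕ → ℕ) (f : ℕ →. ℕ) (E : List ℕ → ℕ → Option ℕ) : Prop where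
  primrec : Primrec₂ E
  mono : ∀ σ τ n y, E σ n = some y → E (σ ++ τ) n = some y
  mem_iff : ∀ n y, y ∈ f n ↔ ∃ k, E (initSeg g k) n = some y

theorem Evaluates.mono_seg {g : ℕ → ℕ} {f : ℕ →. ℕ} {E : List ℕ → ℕ → Option ℕ}
    (h : Evaluates g f E) {k k' n y : ℕ} (hk : k ≤ k') (he : E (initSeg g k) n = some y) :
    E (initSeg g k') n = some y := by
  obtain ⟨d, rfl⟩ := Nat.exists_eq_add_of_le hk
  rw [initSeg, List.range_add, List.map_append]
  exact h.mono _ _ _ _ he

/-- A value not depending on the oracle. -/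
theorem evaluates_primrec (g : ℕ → ℕ) {h : ℕ → ℕ} (hh : Primrec h) :
    Evaluates g (h : ℕ →. ℕ) fun _ n => some (h n) :=
  ⟨(Primrec.option_some.comp (hh.comp Primrec.snd)).to₂, fun _ _ _ _ e => e, fun n y => by
    simp [eq_comm]⟩

theorem evaluates_oracle (g : ℕ → ℕ) : Evaluates g (g : ℕ →. ℕ) fun σ n => σ[n]? := by
  refine ⟨Primrec.list_getElem?, fun σ τ n y e => ?_, fun n y => ⟨fun h => ⟨n + 1, ?_⟩, ?_⟩⟩
  · obtain ⟨hn, rfl⟩ := List.getElem?_eq_some_iff.1 e
    simp [List.getElem?_append_left hn, hn]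
  · simp only [PFun.coe_val, Part.mem_some_iff] at h
    simp [initSeg, h]
  · rintro ⟨k, hk⟩
    obtain ⟨hn, rfl⟩ := List.getElem?_eq_some_iff.1 hk
    simp [initSeg]

/-- The search of a zero below the length of the segment. -/
def search (E : List ℕ → ℕ → Option ℕ) (σ : List ℕ) (a : ℕ) : Option ℕ :=
  let i := first σ.length fun m => (E σ (Nat.pair a m)).getD 0 == 0
  if i < σ.length ∧ E σ (Nat.pair a i) = some 0 then some i else none

theorem search_eq_some {E : List ℕ → ℕ → Option ℕ} {σ : List ℕ} {a i : ℕ} :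
    search E σ a = some i ↔ i < σ.length ∧ E σ (Nat.pair a i) = some 0 ∧
      ∀ m < i, ∃ v, v ≠ 0 ∧ E σ (Nat.pair a m) = some v := by
  have hp : ∀ m, ((E σ (Nat.pair a m)).getD 0 == 0) = false ↔
      ∃ v, v ≠ 0 ∧ E σ (Nat.pair a m) = some v := fun m => by
    cases E σ (Nat.pair a m) <;> simp
  simp only [search]
  constructor
  · intro h
    split at h
    · next hc =>
      obtain rfl := Option.some.inj h
      refine ⟨hc.1, hc.2, fun m hm => ?_⟩
      have := not_of_lt_first hm
      exact (hp m).1 this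
    · simp at h
  · rintro ⟨h1, h2, h3⟩
    have e : first σ.length (fun m => (E σ (Nat.pair a m)).getD 0 == 0) = i := by
      refine le_antisymm (first_le_of_spec (by simp [h2])) (not_lt.1 fun hlt => ?_)
      have := first_spec (p := fun m => (E σ (Nat.pair a m)).getD 0 == 0) (hlt.trans h1)
      rw [(hp _).2 (h3 _ hlt)] at this
      exact Bool.false_ne_true this
    rw [e, if_pos ⟨h1, h2⟩]

/-- **The use principle.** -/
theorem exists_evaluates {g : ℕ → ℕ} {f : ℕ →. ℕ}
    (h : Nat.RecursiveIn {(g : ℕ →. ℕ)} f) : ∃ E, Evaluates g f E := by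
  induction h with
  | zero => exact ⟨_, evaluates_primrec g (Primrec.const 0)⟩
  | succ => exact ⟨_, evaluates_primrec g Primrec.succ⟩
  | left => exact ⟨_, evaluates_primrec g (Primrec.fst.comp Primrec.unpair)⟩
  | right => exact ⟨_, evaluates_primrec g (Primrec.snd.comp Primrec.unpair)⟩
  | oracle o ho =>
    obtain rfl := Set.mem_singleton_iff.1 ho
    exact ⟨_, evaluates_oracle g⟩
  | @pair f₁ f₂ _ _ ih₁ ih₂ =>
    obtain ⟨E₁, h₁⟩ := ih₁
    obtain ⟨E₂, h₂⟩ := ih₂
    refine ⟨fun σ n => (E₁ σ n).bind fun a => (E₂ σ n).map (Nat.pair a), ?_, ?_, fun n y => ?_⟩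
    · exact (Primrec.option_bind (h₁.primrec.comp Primrec.fst Primrec.snd)
        (Primrec.option_map (h₂.primrec.comp (Primrec.fst.comp Primrec.fst)
          (Primrec.snd.comp Primrec.fst))
          (Primrec₂.natPair.comp (Primrec.snd.comp Primrec.fst) Primrec.snd).to₂).to₂).to₂
    · intro σ τ n y e
      obtain ⟨a, ha, e⟩ := Option.bind_eq_some_iff.1 e
      obtain ⟨b, hb, rfl⟩ := Option.map_eq_some_iff.1 e
      simp [h₁.mono _ τ _ _ ha, h₂.mono _ τ _ _ hb]
    · constructor
      · intro hy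
        obtain ⟨a, ha, b, hb, rfl⟩ : ∃ a ∈ f₁ n, ∃ b ∈ f₂ n, Nat.pair a b = y := by
          simpa [Seq.seq] using hy
        obtain ⟨k₁, e₁⟩ := (h₁.mem_iff _ _).1 ha
        obtain ⟨k₂, e₂⟩ := (h₂.mem_iff _ _).1 hb
        exact ⟨k₁ + k₂, by simp [h₁.mono_seg (Nat.le_add_right k₁ k₂) e₁,
          h₂.mono_seg (Nat.le_add_left k₂ k₁) e₂]⟩
      · rintro ⟨k, e⟩
        obtain ⟨a, ha, e⟩ := Option.bind_eq_some_iff.1 e
        obtain ⟨b, hb, rfl⟩ := Option.map_eq_some_iff.1 e
        simp only [Seq.seq, Part.map_eq_map, Part.mem_bind_iff,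
          Part.mem_map_iff]
        exact ⟨_, ⟨a, (h₁.mem_iff _ _).2 ⟨k, ha⟩, rfl⟩, b, (h₂.mem_iff _ _).2 ⟨k, hb⟩, rfl⟩
  | @comp f₁ f₂ _ _ ih₁ ih₂ =>
    obtain ⟨E₁, h₁⟩ := ih₁
    obtain ⟨E₂, h₂⟩ := ih₂
    refine ⟨fun σ n => (E₂ σ n).bind (E₁ σ), ?_, ?_, fun n y => ?_⟩
    · exact (Primrec.option_bind (h₂.primrec.comp Primrec.fst Primrec.snd)
        (h₁.primrec.comp (Primrec.fst.comp Primrec.fst) Primrec.snd).to₂).to₂
    · intro σ τ n y e
      obtain ⟨a, ha, e⟩ := Option.bind_eq_some_iff.1 e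
      simp [h₂.mono _ τ _ _ ha, h₁.mono _ τ _ _ e]
    · constructor
      · intro hy
        obtain ⟨a, ha, hy⟩ := Part.mem_bind_iff.1 hy
        obtain ⟨k₂, e₂⟩ := (h₂.mem_iff _ _).1 ha
        obtain ⟨k₁, e₁⟩ := (h₁.mem_iff _ _).1 hy
        exact ⟨k₁ + k₂, by simp [h₂.mono_seg (Nat.le_add_left k₂ k₁) e₂,
          h₁.mono_seg (Nat.le_add_right k₁ k₂) e₁]⟩
      · rintro ⟨k, e⟩
        obtain ⟨a, ha, e⟩ := Option.bind_eq_some_iff.1 e
        exact Part.mem_bind_iff.2 ⟨a, (h₂.mem_iff _ _).2 ⟨k, ha⟩, (h₁.mem_iff _ _).2 ⟨k, e⟩⟩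
  | @prec f₁ f₂ _ _ ih₁ ih₂ =>
    obtain ⟨E₁, h₁⟩ := ih₁
    obtain ⟨E₂, h₂⟩ := ih₂
    let R : List ℕ → ℕ → ℕ → Option ℕ := fun σ a n => n.rec (E₁ σ a) fun y IH =>
      IH.bind fun i => E₂ σ (Nat.pair a (Nat.pair y i))
    have mono : ∀ σ τ a n y, R σ a n = some y → R (σ ++ τ) a n = some y := by
      intro σ τ a n
      induction n with
      | zero => exact fun y => h₁.mono _ _ _ _
      | succ n ih =>
        intro y e
        obtain ⟨i, hi, e⟩ := Option.bind_eq_some_iff.1 e
        exact Option.bind_eq_some_iff.2 ⟨i, ih i hi, h₂.mono _ _ _ _ e⟩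
    refine ⟨fun σ p => R σ p.unpair.1 p.unpair.2, ?_, fun σ τ p y => mono σ τ _ _ y,
      fun p y => ?_⟩
    · refine (Primrec.nat_rec' (f := fun q : List ℕ × ℕ => q.2.unpair.2)
        (g := fun q => E₁ q.1 q.2.unpair.1)
        (h := fun q c => c.2.bind fun i => E₂ q.1 (Nat.pair q.2.unpair.1 (Nat.pair c.1 i)))
        (Primrec.snd.comp (Primrec.unpair.comp Primrec.snd))
        (h₁.primrec.comp Primrec.fst (Primrec.fst.comp (Primrec.unpair.comp Primrec.snd)))
        (Primrec.option_bind (f := fun x : (List ℕ × ℕ) × ℕ × Option ℕ => x.2.2)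
          (g := fun x i => E₂ x.1.1 (Nat.pair x.1.2.unpair.1 (Nat.pair x.2.1 i)))
          (Primrec.snd.comp Primrec.snd) ?_).to₂).to₂
      exact (h₂.primrec.comp (Primrec.fst.comp (Primrec.fst.comp Primrec.fst))
        (Primrec₂.natPair.comp (Primrec.fst.comp (Primrec.unpair.comp
          (Primrec.snd.comp (Primrec.fst.comp Primrec.fst))))
          (Primrec₂.natPair.comp (Primrec.fst.comp (Primrec.snd.comp Primrec.fst))
            Primrec.snd))).to₂
    · rcases p.unpair with ⟨a, n⟩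
      dsimp only
      induction n generalizing y with
      | zero => exact h₁.mem_iff a y
      | succ n ih =>
        refine Part.mem_bind_iff.trans ⟨?_, ?_⟩
        · rintro ⟨i, hi, hy⟩
          obtain ⟨k₁, e₁⟩ := (ih i).1 hi
          obtain ⟨k₂, e₂⟩ := (h₂.mem_iff _ _).1 hy
          refine ⟨k₁ + k₂, Option.bind_eq_some_iff.2
            ⟨i, ?_, h₂.mono_seg (Nat.le_add_left k₂ k₁) e₂⟩⟩
          rw [initSeg, List.range_add, List.map_append]
          exact mono _ _ _ _ _ e₁
        · rintro ⟨k, e⟩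
          obtain ⟨i, hi, e⟩ := Option.bind_eq_some_iff.1 e
          exact ⟨i, (ih i).2 ⟨k, hi⟩, (h₂.mem_iff _ _).2 ⟨k, e⟩⟩
  | @rfind f₁ _ ih =>
    obtain ⟨E, hE⟩ := ih
    refine ⟨search E, ?_, fun σ τ a i e => ?_, fun a i => ?_⟩
    · have hi : Primrec fun q : List ℕ × ℕ =>
          first q.1.length fun m => (E q.1 (Nat.pair q.2 m)).getD 0 == 0 :=
        primrec_first (Primrec.list_length.comp Primrec.fst)
          (Primrec.beq.comp (Primrec.option_getD.comp (hE.primrec.comp
            (Primrec.fst.comp Primrec.fst)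
            (Primrec₂.natPair.comp (Primrec.snd.comp Primrec.fst) Primrec.snd))
            (Primrec.const 0)) (Primrec.const 0)).to₂
      exact (Primrec.ite ((Primrec.nat_lt.comp hi (Primrec.list_length.comp Primrec.fst)).and
        (Primrec.eq.comp (hE.primrec.comp Primrec.fst (Primrec₂.natPair.comp Primrec.snd hi))
          (Primrec.const (some 0)))) (Primrec.option_some.comp hi) (Primrec.const none)).to₂
    · obtain ⟨h1, h2, h3⟩ := search_eq_some.1 e
      refine search_eq_some.2 ⟨?_, hE.mono _ _ _ _ h2, fun m hm => ?_⟩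
      · rw [List.length_append]
        exact Nat.lt_add_right _ h1
      · obtain ⟨v, hv, ev⟩ := h3 m hm
        exact ⟨v, hv, hE.mono _ _ _ _ ev⟩
    · refine Nat.mem_rfind.trans ?_
      simp only [Part.map_eq_map, Part.mem_map_iff, decide_eq_true_eq, decide_eq_false_iff_not,
        search_eq_some]
      constructor
      · rintro ⟨⟨z, hz, rfl⟩, hmin⟩
        obtain ⟨k₀, e₀⟩ := (hE.mem_iff _ _).1 hz
        have : ∀ j ≤ i, ∃ K, ∀ m < j, ∃ v, v ≠ 0 ∧ E (initSeg g K) (Nat.pair a m) = some v := by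
          intro j hj
          induction j with
          | zero => exact ⟨0, fun m hm => absurd hm (Nat.not_lt_zero m)⟩
          | succ j ihj =>
            obtain ⟨K, hK⟩ := ihj (Nat.le_of_succ_le hj)
            obtain ⟨v, hv, hv0⟩ := hmin (Nat.lt_of_succ_le hj)
            obtain ⟨k, ek⟩ := (hE.mem_iff _ _).1 hv
            refine ⟨K + k, fun m hm => ?_⟩
            rcases Nat.lt_succ_iff_lt_or_eq.1 hm with hm | rfl
            · obtain ⟨w, hw, ew⟩ := hK m hm
              exact ⟨w, hw, hE.mono_seg (Nat.le_add_right K k) ew⟩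
            · exact ⟨v, hv0, hE.mono_seg (Nat.le_add_left k K) ek⟩
        obtain ⟨K, hK⟩ := this i le_rfl
        refine ⟨k₀ + K + (i + 1), ?_, hE.mono_seg (by omega) e₀, fun m hm => ?_⟩
        · simp [initSeg]
          omega
        · obtain ⟨v, hv, ev⟩ := hK m hm
          exact ⟨v, hv, hE.mono_seg (by omega) ev⟩
      · rintro ⟨k, -, h2, h3⟩
        refine ⟨⟨0, (hE.mem_iff _ _).2 ⟨k, h2⟩, rfl⟩, fun {m} hm => ?_⟩
        obtain ⟨v, hv, ev⟩ := h3 m hm
        exact ⟨v, (hE.mem_iff _ _).2 ⟨k, ev⟩, hv⟩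

end FA.FriedbergMuchnik
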