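import Mathlib.Computability.PartrecCode
import Fermat.Agent.FriedbergMuchnik.Use

/-!
# The construction of Friedberg and Muchnik

A state has two finite sets and a list of requirements in the order of priority, each with a
witness and, once it has acted, the length of the preserved segment. Requirement `2 * e` puts its
witness into the first set when program `e` accepts it with a segment of the second, and `2 * e + 1`
does the same with the sets exchanged. Acting removes all requirements of lower priority from the
list, and one requirement returns at each stage with the stage as its new witness.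
-/

set_option autoImplicit false

namespace FA.FriedbergMuchnik

/-- Two finite sets and the requirements with witness and preserved length. -/
abbrev State : Type := List ℕ × List ℕ × List (ℕ × Option ℕ)

/-- The characteristic list of a finite set. -/
def indSeg (L : List ℕ) (k : ℕ) : List ℕ :=
  (List.range k).map fun j => if L.idxOf j < L.length then 1 else 0

/-- Program `e` accepts the witness with the segment within `t` steps. -/
def accepts (t e : ℕ) (σ : List ℕ) (x : ℕ) : Bool :=
  decide (Nat.Partrec.Code.evaln t (Denumerable.ofNat Nat.Partrec.Code e)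
    (Encodable.encode (σ, x)) = some 0)

/-- The set of the witnesses of a requirement. -/
def mine (i : ℕ) (S : State) : List ℕ :=
  if i % 2 = 0 then S.1 else S.2.1

/-- The oracle of a requirement. -/
def other (i : ℕ) (S : State) : List ℕ :=
  if i % 2 = 0 then S.2.1 else S.1

/-- The requirements at a stage, with one more. -/
def listed (s : ℕ) (S : State) : List (ℕ × Option ℕ) :=
  S.2.2 ++ [(s, none)]

/-- The entry of a requirement. -/
def entry (s : ℕ) (S : State) (i : ℕ) : ℕ × Option ℕ :=
  (listed s S).getD i (0, none)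

/-- The least segment accepted at the stage, or a length beyond the stage. -/
def useOf (s : ℕ) (S : State) (i : ℕ) : ℕ :=
  first (s + 1) fun k => accepts s (i / 2) (indSeg (other i S) k) (entry s S i).1

/-- A requirement which can act. -/
def canAct (s : ℕ) (S : State) (i : ℕ) : Bool :=
  decide ((entry s S i).2 = none ∧ useOf s S i ≤ s)

/-- The requirement acting at the stage. -/
def chosen (s : ℕ) (S : State) : ℕ :=
  first (listed s S).length (canAct s S)

/-- The state after an action. -/
def act (s : ℕ) (S : State) (i : ℕ) : State :=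
  (if i % 2 = 0 then (entry s S i).1 :: S.1 else S.1,
    if i % 2 = 0 then S.2.1 else (entry s S i).1 :: S.2.1,
    (listed s S).take i ++ [((entry s S i).1, some (useOf s S i))])

/-- One stage. -/
def next (s : ℕ) (S : State) : State :=
  if chosen s S < (listed s S).length then act s S (chosen s S) else (S.1, S.2.1, listed s S)

/-- The state at the start of each stage. -/
def state : ℕ → State
  | 0 => ([], [], [])
  | s + 1 => next s (state s)

theorem mem_indSeg_iff (L : List ℕ) (j : ℕ) : L.idxOf j < L.length ↔ j ∈ L :=
  List.idxOf_lt_length_iff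

theorem indSeg_congr {L L' : List ℕ} {k : ℕ} (h : ∀ j < k, j ∈ L ↔ j ∈ L') :
    indSeg L k = indSeg L' k :=
  List.map_congr_left fun j hj => by simp [mem_indSeg_iff, h j (List.mem_range.1 hj)]

theorem primrec_state : Primrec state := by
  have hc : Primrec fun q : ℕ × State => q.1 := Primrec.fst
  have hA : Primrec fun q : ℕ × State => q.2.1 := Primrec.fst.comp Primrec.snd
  have hB : Primrec fun q : ℕ × State => q.2.2.1 :=
    Primrec.fst.comp (Primrec.snd.comp Primrec.snd)
  have hl : Primrec fun q : ℕ × State => listed q.1 q.2 :=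
    Primrec.list_concat.comp (Primrec.snd.comp (Primrec.snd.comp Primrec.snd))
      (Primrec.pair hc (Primrec.const none))
  have hent : Primrec₂ fun (q : ℕ × State) (i : ℕ) => entry q.1 q.2 i :=
    ((Primrec.list_getD (0, none)).comp (hl.comp Primrec.fst) Primrec.snd).to₂
  have hev : Primrec fun p : (ℕ × State) × ℕ => decide (p.2 % 2 = 0) :=
    (Primrec.eq.comp (Primrec.nat_mod.comp Primrec.snd (Primrec.const 2)) (Primrec.const 0)).decide
  have hev' : PrimrecPred fun p : (ℕ × State) × ℕ => p.2 % 2 = 0 :=
    Primrec.eq.comp (Primrec.nat_mod.comp Primrec.snd (Primrec.const 2)) (Primrec.const 0)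
  have hoth : Primrec fun p : (ℕ × State) × ℕ => other p.2 p.1.2 :=
    Primrec.ite hev' (hB.comp Primrec.fst) (hA.comp Primrec.fst)
  have hind : Primrec₂ fun (L : List ℕ) (k : ℕ) => indSeg L k :=
    (Primrec.list_map (Primrec.list_range.comp Primrec.snd)
      (Primrec.ite (Primrec.nat_lt.comp
        (Primrec.list_idxOf.comp Primrec.snd (Primrec.fst.comp Primrec.fst))
        (Primrec.list_length.comp (Primrec.fst.comp Primrec.fst)))
        (Primrec.const 1) (Primrec.const 0)).to₂).to₂
  have hacc : Primrec fun a : (ℕ × ℕ) × (List ℕ × ℕ) => accepts a.1.1 a.1.2 a.2.1 a.2.2 := by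
    unfold accepts
    have h1 : Primrec fun a : (ℕ × ℕ) × (List ℕ × ℕ) =>
        ((a.1.1, Denumerable.ofNat Nat.Partrec.Code a.1.2), Encodable.encode a.2) :=
      Primrec.pair (Primrec.pair (Primrec.fst.comp Primrec.fst)
        ((Primrec.ofNat Nat.Partrec.Code).comp (Primrec.snd.comp Primrec.fst)))
        (Primrec.encode.comp Primrec.snd)
    exact (Primrec.eq.comp (Nat.Partrec.Code.primrec_evaln.comp h1)
      (Primrec.const (some 0))).decide
  have hs : Primrec fun p : (ℕ × State) × ℕ => p.1.1 := Primrec.fst.comp Primrec.fst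
  have huse : Primrec fun p : (ℕ × State) × ℕ => useOf p.1.1 p.1.2 p.2 :=
    primrec_first (Primrec.succ.comp hs) (hacc.comp (Primrec.pair
      (Primrec.pair (hs.comp Primrec.fst)
        (Primrec.nat_div.comp (Primrec.snd.comp Primrec.fst) (Primrec.const 2)))
      (Primrec.pair (hind.comp (hoth.comp Primrec.fst) Primrec.snd)
        (Primrec.fst.comp (hent.comp (Primrec.fst.comp Primrec.fst)
          (Primrec.snd.comp Primrec.fst)))))).to₂
  have hcan : Primrec₂ fun (q : ℕ × State) (i : ℕ) => canAct q.1 q.2 i :=
    ((Primrec.eq.comp (Primrec.snd.comp (hent.comp Primrec.fst Primrec.snd))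
      (Primrec.const none)).and (Primrec.nat_le.comp huse hs)).decide.to₂
  have hch : Primrec fun q : ℕ × State => chosen q.1 q.2 :=
    primrec_first (Primrec.list_length.comp hl) hcan
  have hact : Primrec fun p : (ℕ × State) × ℕ => act p.1.1 p.1.2 p.2 := by
    have hx : Primrec fun p : (ℕ × State) × ℕ => (entry p.1.1 p.1.2 p.2).1 :=
      Primrec.fst.comp (hent.comp Primrec.fst Primrec.snd)
    exact Primrec.pair (Primrec.ite hev' (Primrec.list_cons.comp hx (hA.comp Primrec.fst))
        (hA.comp Primrec.fst))
      (Primrec.pair (Primrec.ite hev' (hB.comp Primrec.fst)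
          (Primrec.list_cons.comp hx (hB.comp Primrec.fst)))
        (Primrec.list_concat.comp (Primrec.list_take.comp Primrec.snd (hl.comp Primrec.fst))
          (Primrec.pair hx (Primrec.option_some.comp huse))))
  have hnext : Primrec fun q : ℕ × State => next q.1 q.2 :=
    Primrec.ite (Primrec.nat_lt.comp hch (Primrec.list_length.comp hl))
      (hact.comp (Primrec.pair Primrec.id hch)) (Primrec.pair hA (Primrec.pair hB hl))
  refine (Primrec.nat_rec₁ (([], [], []) : State) hnext.to₂).of_eq fun s => ?_
  induction s with
  | zero => rfl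
  | succ s ih => exact congrArg (next s) ih

/-- What holds of the requirement in place `i`: an open witness has not been used, and a witness
used with a preserved segment is in its set and the segment was accepted. -/
def Sound (S : State) (i : ℕ) (x : ℕ) (r : Option ℕ) : Prop :=
  match r with
  | none => x ∉ S.1 ∧ x ∉ S.2.1
  | some k => x ∈ mine i S ∧ (∃ t, accepts t (i / 2) (indSeg (other i S) k) x = true) ∧
      ∀ j y r', i < j → S.2.2[j]? = some (y, r') → k ≤ y

/-- The invariant at the start of stage `s`. -/
structure Inv (s : ℕ) (S : State) : Prop where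
  witness_lt : ∀ (i x : ℕ) (r : Option ℕ), S.2.2[i]? = some (x, r) → x < s
  increasing : ∀ (i j x : ℕ) (r : Option ℕ) (y : ℕ) (r' : Option ℕ), i < j →
    S.2.2[i]? = some (x, r) → S.2.2[j]? = some (y, r') → x < y
  mem_lt : ∀ x, x ∈ S.1 ∨ x ∈ S.2.1 → x < s
  use_lt : ∀ (i x k : ℕ), S.2.2[i]? = some (x, some k) → k < s
  sound : ∀ (i x : ℕ) (r : Option ℕ), S.2.2[i]? = some (x, r) → Sound S i x r

theorem entry_eq {s : ℕ} {S : State} {i : ℕ} (h : i < (listed s S).length) :
    (listed s S)[i]? = some (entry s S i) := by
  simp [entry, List.getD_eq_getElem?_getD, List.getElem?_eq_getElem h]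

theorem listed_cases {s : ℕ} {S : State} {i x : ℕ} {r : Option ℕ}
    (h : (listed s S)[i]? = some (x, r)) :
    (i < S.2.2.length ∧ S.2.2[i]? = some (x, r)) ∨ (i = S.2.2.length ∧ x = s ∧ r = none) := by
  rcases lt_trichotomy i S.2.2.length with hi | rfl | hi
  · exact .inl ⟨hi, by rwa [listed, List.getElem?_append_left hi] at h⟩
  · simp only [listed, List.getElem?_concat_length, Option.some.injEq, Prod.mk.injEq] at h
    exact .inr ⟨rfl, h.1.symm, h.2.symm⟩
  · simp [listed, List.getElem?_eq_none (show (S.2.2 ++ [(s, none)]).length ≤ i by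
      simp; omega)] at h

/-- Adding one requirement keeps the invariant. -/
theorem inv_listed {s : ℕ} {S : State} (h : Inv s S) : Inv (s + 1) (S.1, S.2.1, listed s S) := by
  refine ⟨fun i x r hi => ?_, fun i j x r y r' hij hi hj => ?_, fun x hx => ?_,
    fun i x k hi => ?_, fun i x r hi => ?_⟩
  · rcases listed_cases hi with ⟨-, hi⟩ | ⟨-, rfl, -⟩
    · exact Nat.lt_succ_of_lt (h.witness_lt i x r hi)
    · exact Nat.lt_succ_self x
  · rcases listed_cases hi with ⟨hl, hi₁⟩ | ⟨hl, -, -⟩
    · rcases listed_cases hj with ⟨-, hj₁⟩ | ⟨-, rfl, -⟩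
      · exact h.increasing i j x r y r' hij hi₁ hj₁
      · exact h.witness_lt i x r hi₁
    · rcases listed_cases hj with ⟨hl', -⟩ | ⟨hl', -, -⟩ <;> omega
  · exact Nat.lt_succ_of_lt (h.mem_lt x hx)
  · rcases listed_cases hi with ⟨-, hi₁⟩ | ⟨-, -, h'⟩
    · exact Nat.lt_succ_of_lt (h.use_lt i x k hi₁)
    · cases h'
  · rcases listed_cases hi with ⟨-, hi₁⟩ | ⟨-, rfl, rfl⟩
    · have hs := h.sound i x r hi₁
      cases r with
      | none => exact hs
      | some k =>
        obtain ⟨h1, h2, h3⟩ := hs
        refine ⟨h1, h2, fun j y r' hij hj => ?_⟩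
        rcases listed_cases hj with ⟨-, hj⟩ | ⟨-, rfl, -⟩
        · exact h3 j y r' hij hj
        · exact (h.use_lt i x k hi₁).le
    · exact ⟨fun hx => lt_irrefl _ (h.mem_lt x (.inl hx)),
        fun hx => lt_irrefl _ (h.mem_lt x (.inr hx))⟩

theorem mem_mine_act (s : ℕ) (S : State) (i j z : ℕ) :
    (z ∈ mine j (act s S i) ↔ z ∈ mine j S ∨ (z = (entry s S i).1 ∧ i % 2 = j % 2)) ∧
    (z ∈ other j (act s S i) ↔ z ∈ other j S ∨ (z = (entry s S i).1 ∧ i % 2 ≠ j % 2)) := by
  rcases Nat.mod_two_eq_zero_or_one i with hi | hi <;>
    rcases Nat.mod_two_eq_zero_or_one j with hj | hj <;>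
    simp [mine, other, act, hi, hj, or_comm]

theorem accepts_chosen {s : ℕ} {S : State} {i : ℕ} (h : canAct s S i = true) :
    useOf s S i ≤ s ∧ (entry s S i).2 = none ∧
      accepts s (i / 2) (indSeg (other i S) (useOf s S i)) (entry s S i).1 = true := by
  simp only [canAct, decide_eq_true_eq] at h
  exact ⟨h.2, h.1, first_spec (p := fun k => accepts s (i / 2) (indSeg (other i S) k)
    (entry s S i).1) (Nat.lt_succ_of_le h.2)⟩

/-- An action keeps the invariant. -/
theorem inv_act {s : ℕ} {S : State} (h : Inv s S) {i : ℕ} (hi : i < (listed s S).length)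
    (hc : canAct s S i = true) : Inv (s + 1) (act s S i) := by
  have h' := inv_listed h
  obtain ⟨hk, hnone, hacc⟩ := accepts_chosen hc
  have hx : (listed s S)[i]? = some ((entry s S i).1, none) := by
    rw [entry_eq hi, ← hnone]
  have get : ∀ {j y r}, (act s S i).2.2[j]? = some (y, r) →
      (j < i ∧ (listed s S)[j]? = some (y, r)) ∨
        (j = i ∧ y = (entry s S i).1 ∧ r = some (useOf s S i)) := by
    intro j y r hj
    have hlen : ((listed s S).take i).length = i := List.length_take_of_le hi.le
    rcases lt_trichotomy j i with hji | rfl | hji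
    · refine .inl ⟨hji, ?_⟩
      simp only [act] at hj
      rwa [List.getElem?_append_left (by omega), List.getElem?_take_of_lt hji] at hj
    · simp only [act] at hj
      rw [List.getElem?_append_right hlen.le, hlen, Nat.sub_self] at hj
      simp only [List.getElem?_cons_zero, Option.some.injEq, Prod.mk.injEq] at hj
      exact .inr ⟨rfl, hj.1.symm, hj.2.symm⟩
    · simp only [act] at hj
      rw [List.getElem?_eq_none (by simp; omega)] at hj
      cases hj
  refine ⟨fun j y r hj => ?_, fun a b x r y r' hab ha hb => ?_, fun z hz => ?_,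
    fun j y k hj => ?_, fun j y r hj => ?_⟩
  · rcases get hj with ⟨-, hj⟩ | ⟨-, rfl, -⟩
    · exact h'.witness_lt j y r hj
    · exact h'.witness_lt i _ none hx
  · rcases get ha with ⟨ha', ha₁⟩ | ⟨ha', -, -⟩
    · rcases get hb with ⟨-, hb₁⟩ | ⟨rfl, rfl, -⟩
      · exact h'.increasing a b x r y r' hab ha₁ hb₁
      · exact h'.increasing a _ x r _ none hab ha₁ hx
    · rcases get hb with ⟨hb', -⟩ | ⟨hb', -, -⟩ <;> omega
  · have hwit := h'.witness_lt i _ none hx
    rcases hz with hz | hz
    · rcases ((mem_mine_act s S i 0 z).1.1 hz) with hz | ⟨rfl, -⟩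
      · exact h'.mem_lt z (.inl hz)
      · exact hwit
    · rcases ((mem_mine_act s S i 1 z).1.1 hz) with hz | ⟨rfl, -⟩
      · exact h'.mem_lt z (.inr hz)
      · exact hwit
  · rcases get hj with ⟨-, hj⟩ | ⟨-, -, e⟩
    · exact h'.use_lt j y k hj
    · cases e
      exact Nat.lt_succ_of_le hk
  · rcases get hj with ⟨hji, hj⟩ | ⟨hji, rfl, rfl⟩
    · have hs := h'.sound j y r hj
      have hlt : y < (entry s S i).1 := h'.increasing j i y r _ none hji hj hx
      cases r with
      | none =>
        constructor
        · intro hy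
          rcases (mem_mine_act s S i 0 y).1.1 hy with hy | ⟨rfl, -⟩
          · exact hs.1 hy
          · exact lt_irrefl _ hlt
        · intro hy
          rcases (mem_mine_act s S i 1 y).1.1 hy with hy | ⟨rfl, -⟩
          · exact hs.2 hy
          · exact lt_irrefl _ hlt
      | some k =>
        obtain ⟨h1, ⟨t, h2⟩, h3⟩ := hs
        have hkx : k ≤ (entry s S i).1 := h3 i _ none hji hx
        refine ⟨(mem_mine_act s S i j y).1.2 (.inl h1), ⟨t, ?_⟩, fun b z r' hjb hb => ?_⟩
        · rw [indSeg_congr (L' := other j (S.1, S.2.1, listed s S)) fun m hm => ?_]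
          · exact h2
          · refine (mem_mine_act s S i j m).2.trans ⟨?_, .inl⟩
            rintro (hm' | ⟨rfl, -⟩)
            · exact hm'
            · omega
        · rcases get hb with ⟨-, hb⟩ | ⟨rfl, rfl, -⟩
          · exact h3 b z r' hjb hb
          · exact hkx
    · subst hji
      refine ⟨(mem_mine_act s S j j _).1.2 (.inr ⟨rfl, rfl⟩), ⟨s, ?_⟩, fun b z r' hjb hb => ?_⟩
      · rw [indSeg_congr (L' := other j S) fun m hm => ?_]
        · exact hacc
        · exact (mem_mine_act s S j j m).2.trans
            ⟨fun hm' => hm'.resolve_right fun h2 => h2.2 rfl, .inl⟩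
      · rcases get hb with ⟨hb', -⟩ | ⟨hb', -, -⟩ <;> omega

/-- **The invariant holds at every stage.** -/
theorem inv_state : ∀ s, Inv s (state s)
  | 0 => ⟨by simp [state], by simp [state], by simp [state], by simp [state], by simp [state]⟩
  | s + 1 => by
    change Inv (s + 1) (next s (state s))
    unfold next
    split
    · next h => exact inv_act (inv_state s) h (first_spec h)
    · exact inv_listed (inv_state s)

end FA.FriedbergMuchnik
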