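import Mathlib.Computability.Halting
import Mathlib.Computability.TuringDegree
import Fermat.Agent.FriedbergMuchnik.Construction

/-!
# The requirements are met

Below each place the list is eventually constant. A requirement whose witness stays open keeps it
out of its set, so a reduction would give an accepted segment and the requirement would act. A
requirement which has acted keeps the segment which says that its witness is outside, but the
witness is inside.
-/

set_option autoImplicit false

namespace FA.FriedbergMuchnik

open scoped Classical in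
/-- The characteristic function. -/
noncomputable def chi (P : Set ℕ) (x : ℕ) : ℕ :=
  if x ∈ P then 1 else 0

/-- The set made for the witnesses of a requirement. -/
def setMine (i : ℕ) : Set ℕ :=
  {x | ∃ s, x ∈ mine i (state s)}

/-- The set made for the oracle of a requirement. -/
def setOther (i : ℕ) : Set ℕ :=
  {x | ∃ s, x ∈ other i (state s)}

theorem next_cases (s : ℕ) (S : State) :
    (chosen s S < (listed s S).length ∧ canAct s S (chosen s S) = true ∧
      next s S = act s S (chosen s S)) ∨
    ((listed s S).length ≤ chosen s S ∧ next s S = (S.1, S.2.1, listed s S)) := by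
  unfold next
  split
  · next h => exact .inl ⟨h, first_spec h, rfl⟩
  · next h => exact .inr ⟨not_lt.1 h, rfl⟩

theorem mine_mono (i : ℕ) {s s' x : ℕ} (hs : s ≤ s') (h : x ∈ mine i (state s)) :
    x ∈ mine i (state s') := by
  induction hs with
  | refl => exact h
  | @step m _ ih =>
    change x ∈ mine i (next m (state m))
    rcases next_cases m (state m) with ⟨-, -, e⟩ | ⟨-, e⟩ <;> rw [e]
    · exact (mem_mine_act _ _ _ _ _).1.2 (.inl ih)
    · exact ih

theorem other_eq (i : ℕ) (S : State) : other i S = mine (i + 1) S := by
  rcases Nat.mod_two_eq_zero_or_one i with h | h <;> simp [other, mine, h, Nat.add_mod]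

/-- The segments of the oracle are eventually those of its limit. -/
theorem exists_segment_stable (i k : ℕ) : ∃ s₀, ∀ s, s₀ ≤ s →
    indSeg (other i (state s)) k = initSeg (chi (setOther i)) k := by
  have h : ∀ j, ∃ s₀, ∀ s, s₀ ≤ s → (j ∈ other i (state s) ↔ j ∈ setOther i) := by
    intro j
    by_cases hj : j ∈ setOther i
    · obtain ⟨s₀, h₀⟩ := id hj
      refine ⟨s₀, fun s hs => iff_of_true ?_ hj⟩
      rw [other_eq] at h₀ ⊢
      exact mine_mono _ hs h₀
    · exact ⟨0, fun s _ => iff_of_false (fun h => hj ⟨s, h⟩) hj⟩
  choose s₀ hs₀ using h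
  refine ⟨(Finset.range k).sup s₀, fun s hs => List.map_congr_left fun j hj => ?_⟩
  have := hs₀ j s ((Finset.le_sup (Finset.mem_range.2 (List.mem_range.1 hj))).trans hs)
  classical
  exact if_congr ((mem_indSeg_iff _ _).trans this) rfl rfl

/-- The part of the list before a place is eventually constant. -/
theorem exists_prefix_stable : ∀ i, ∃ s₀, ∀ s, s₀ ≤ s → i ≤ (state s).2.2.length ∧
    ∀ j < i, (state s).2.2[j]? = (state s₀).2.2[j]?
  | 0 => ⟨0, fun s _ => ⟨Nat.zero_le _, fun j hj => absurd hj (Nat.not_lt_zero j)⟩⟩
  | i + 1 => by
    obtain ⟨S, hS⟩ := exists_prefix_stable i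
    have step : ∀ s, S ≤ s → i < (state (s + 1)).2.2.length ∧
        (i < (state s).2.2.length →
          ((state (s + 1)).2.2[i]? = (state s).2.2[i]? ∨
            ((∃ x, (state s).2.2[i]? = some (x, none)) ∧
              ∃ x k, (state (s + 1)).2.2[i]? = some (x, some k)))) := by
      intro s hs
      change _ < (next s (state s)).2.2.length ∧ (_ → ((next s (state s)).2.2[i]? = _ ∨
        (_ ∧ ∃ x k, (next s (state s)).2.2[i]? = some (x, some k))))
      have hlen : (listed s (state s)).length = (state s).2.2.length + 1 := by simp [listed]
      rcases next_cases s (state s) with ⟨hc, hcan, e⟩ | ⟨hc, e⟩ <;> rw [e]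
      · have hci : i ≤ chosen s (state s) := by
          refine not_lt.1 fun hlt => ?_
          have hl : chosen s (state s) < (state s).2.2.length := hlt.trans_le (hS s hs).1
          have h1 := ((hS (s + 1) (hs.trans (Nat.le_succ s))).2 _ hlt).trans
            ((hS s hs).2 _ hlt).symm
          change (next s (state s)).2.2[chosen s (state s)]? = _ at h1
          rw [e] at h1
          have h2 : (act s (state s) (chosen s (state s))).2.2[chosen s (state s)]? = some
              ((entry s (state s) (chosen s (state s))).1,
                some (useOf s (state s) (chosen s (state s)))) := by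
            simp [act, List.length_take_of_le hc.le]
          have h3 : (listed s (state s))[chosen s (state s)]? =
              (state s).2.2[chosen s (state s)]? := by
            rw [listed, List.getElem?_append_left hl]
          have h4 := (entry_eq hc).symm.trans (h3.trans (h1.symm.trans h2))
          have h5 := (accepts_chosen hcan).2.1
          rw [Option.some.inj h4] at h5
          cases h5
        refine ⟨?_, fun hi => ?_⟩
        · simp only [act, List.length_append, List.length_take_of_le hc.le, List.length_singleton]
          omega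
        · rcases hci.eq_or_lt with rfl | hlt
          · refine .inr ⟨⟨(entry s (state s) (chosen s (state s))).1, ?_⟩,
              (entry s (state s) (chosen s (state s))).1, useOf s (state s) (chosen s (state s)),
              by simp [act, List.length_take_of_le hc.le]⟩
            exact (List.getElem?_append_left (l₂ := [(s, none)]) hi).symm.trans
              ((entry_eq hc).trans (congrArg some (Prod.ext rfl (accepts_chosen hcan).2.1)))
          · refine .inl ?_
            simp only [act]
            rw [List.getElem?_append_left (by rw [List.length_take_of_le hc.le]; exact hlt),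
              List.getElem?_take_of_lt hlt, listed, List.getElem?_append_left hi]
      · refine ⟨?_, fun hi => .inl ?_⟩
        · have := (hS s hs).1
          dsimp only
          omega
        · exact List.getElem?_append_left hi
    have hlong : ∀ s, S + 1 ≤ s → i < (state s).2.2.length := by
      intro s hs
      obtain ⟨t, rfl⟩ : ∃ t, s = t + 1 := ⟨s - 1, by omega⟩
      exact (step t (by omega)).1
    suffices ∃ s₀, S + 1 ≤ s₀ ∧ ∀ s, s₀ ≤ s → (state s).2.2[i]? = (state s₀).2.2[i]? by
      obtain ⟨s₀, h₀, h⟩ := this
      refine ⟨s₀, fun s hs => ⟨hlong s (h₀.trans hs), fun j hj => ?_⟩⟩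
      rcases Nat.lt_succ_iff_lt_or_eq.1 hj with hj | rfl
      · exact ((hS s (by omega)).2 j hj).trans ((hS s₀ (by omega)).2 j hj).symm
      · exact h s hs
    by_cases hd : ∃ s, S + 1 ≤ s ∧ ∃ x k, (state s).2.2[i]? = some (x, some k)
    · obtain ⟨s₁, hs₁, x, k, e⟩ := hd
      refine ⟨s₁, hs₁, fun s hs => ?_⟩
      induction hs with
      | refl => rfl
      | @step m hm ih =>
        have hm' : S + 1 ≤ m := hs₁.trans hm
        rcases (step m (by omega)).2 (hlong m hm') with h | ⟨⟨y, hy⟩, -⟩
        · exact h.trans ih
        · rw [ih, e] at hy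
          cases hy
    · refine ⟨S + 1, le_rfl, fun s hs => ?_⟩
      induction hs with
      | refl => rfl
      | @step m hm ih =>
        rcases (step m (Nat.le_of_succ_le hm)).2 (hlong m hm) with h | ⟨-, h⟩
        · exact h.trans ih
        · exact absurd ⟨m + 1, Nat.le_succ_of_le hm, h⟩ hd

/-- **Each requirement is met.** -/
theorem not_evaluates (c : Nat.Partrec.Code) (i : ℕ) (hi : i / 2 = Encodable.encode c)
    {E : List ℕ → ℕ → Option ℕ}
    (hc : ∀ σ x, 0 ∈ c.eval (Encodable.encode (σ, x)) ↔ E σ x = some 0) :
    ¬Evaluates (chi (setOther i)) (chi (setMine i) : ℕ →. ℕ) E := by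
  intro hE
  have acc : ∀ t σ x, accepts t (i / 2) σ x = true ↔
      0 ∈ Nat.Partrec.Code.evaln t c (Encodable.encode (σ, x)) := by
    intro t σ x
    simp [accepts, hi]
  obtain ⟨S, hS⟩ := exists_prefix_stable (i + 1)
  have hiS : i < (state S).2.2.length := (hS S le_rfl).1
  obtain ⟨⟨x, r⟩, hx⟩ : ∃ e, (state S).2.2[i]? = some e :=
    ⟨_, List.getElem?_eq_getElem hiS⟩
  have hxs : ∀ s, S ≤ s → (state s).2.2[i]? = some (x, r) := fun s hs =>
    ((hS s hs).2 i i.lt_succ_self).trans hx
  cases r with
  | some k =>
    obtain ⟨s₀, h₀⟩ := exists_segment_stable i k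
    obtain ⟨hmem, ⟨t, ht⟩, -⟩ :=
      (inv_state (max S s₀)).sound i x _ (hxs _ (le_max_left _ _))
    rw [h₀ _ (le_max_right _ _), acc] at ht
    have h := (hE.mem_iff x 0).2 ⟨k, (hc _ _).1 (Nat.Partrec.Code.evaln_sound ht)⟩
    have hx' : x ∈ setMine i := ⟨_, hmem⟩
    simp [chi, hx'] at h
  | none =>
    have hx' : x ∉ setMine i := by
      rintro ⟨s, hs⟩
      have h := (inv_state (max S s)).sound i x _ (hxs _ (le_max_left _ _))
      have hs' := mine_mono i (le_max_right S s) hs
      unfold mine at hs'
      split at hs'
      · exact h.1 hs'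
      · exact h.2 hs'
    obtain ⟨k, hk⟩ := (hE.mem_iff x 0).1 (by simp [chi, hx'])
    obtain ⟨t, ht⟩ := Nat.Partrec.Code.evaln_complete.1 ((hc _ _).2 hk)
    obtain ⟨s₀, h₀⟩ := exists_segment_stable i k
    set s := max (max S s₀) (max t k) with hs
    have hSs : S ≤ s := by omega
    have hent : entry s (state s) i = (x, none) := by
      have hlt : i < (state s).2.2.length := (hS s hSs).1
      simp [entry, listed, List.getD_eq_getElem?_getD, List.getElem?_append_left hlt, hxs s hSs]
    have huse : useOf s (state s) i ≤ k := by
      refine first_le_of_spec ?_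
      rw [hent, h₀ s (by omega), acc]
      exact Nat.Partrec.Code.evaln_mono (by omega) ht
    have hcan : canAct s (state s) i = true := by
      simp [canAct, hent]
      omega
    have hle : chosen s (state s) ≤ i := first_le_of_spec hcan
    rcases next_cases s (state s) with ⟨hlt, hcan', e⟩ | ⟨hge, -⟩
    · have h1 := (hS (s + 1) (by omega)).1
      have h2 := ((hS (s + 1) (by omega)).2 _ (Nat.lt_succ_of_le hle)).trans
        ((hS s hSs).2 _ (Nat.lt_succ_of_le hle)).symm
      change (next s (state s)).2.2[chosen s (state s)]? = _ at h2
      rw [e] at h2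
      have h3 : (listed s (state s))[chosen s (state s)]? =
          (state s).2.2[chosen s (state s)]? := by
        rw [listed, List.getElem?_append_left (hle.trans_lt (hS s hSs).1)]
      have h4 := (entry_eq hlt).symm.trans (h3.trans h2.symm)
      have h5 := (accepts_chosen hcan').2.1
      simp [act, List.length_take_of_le hlt.le] at h4
      rw [h4] at h5
      cases h5
    · have := (hS s hSs).1
      simp [listed] at hge
      omega

/-- The two sets are enumerated by the construction. -/
theorem rePred_setMine (i : ℕ) : REPred fun x => x ∈ setMine i := by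
  have hm : Computable₂ fun (x s : ℕ) =>
      decide ((mine i (state s)).idxOf x < (mine i (state s)).length) := by
    have hl : Primrec fun p : ℕ × ℕ => mine i (state p.2) := by
      unfold mine
      split
      · exact Primrec.fst.comp (primrec_state.comp Primrec.snd)
      · exact Primrec.fst.comp (Primrec.snd.comp (primrec_state.comp Primrec.snd))
    exact (Primrec.nat_lt.comp (Primrec.list_idxOf.comp Primrec.fst hl)
      (Primrec.list_length.comp hl)).decide.to_comp.to₂
  refine (Partrec.rfind hm.partrec₂).dom_re.of_eq fun x => ?_
  simp [Nat.rfind_dom, mem_indSeg_iff, setMine]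

/-- **The requirements exclude both reductions.** -/
theorem not_reducible (p : ℕ) (hp : p < 2) :
    ¬TuringReducible (chi (setMine p) : ℕ →. ℕ) (chi (setOther p) : ℕ →. ℕ) := by
  intro h
  obtain ⟨E, hE⟩ := exists_evaluates (RecursiveIn.iff_nat.1 h)
  have hf : Computable fun n : ℕ =>
      ((Encodable.decode n : Option (List ℕ × ℕ)).bind fun q => E q.1 q.2).getD 1 :=
    (Primrec.option_getD.comp (Primrec.option_bind Primrec.decode
      (hE.primrec.comp (Primrec.fst.comp Primrec.snd) (Primrec.snd.comp Primrec.snd)).to₂)
      (Primrec.const 1)).to_comp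
  obtain ⟨c, hc⟩ := Nat.Partrec.Code.exists_code.1 (Partrec.nat_iff.1 hf.partrec)
  have hmod : (2 * Encodable.encode c + p) % 2 = p := by omega
  have e1 : setMine (2 * Encodable.encode c + p) = setMine p := by
    simp [setMine, mine, hmod, Nat.mod_eq_of_lt hp]
  have e2 : setOther (2 * Encodable.encode c + p) = setOther p := by
    simp [setOther, other, hmod, Nat.mod_eq_of_lt hp]
  refine not_evaluates c (2 * Encodable.encode c + p) (by omega) (E := E) (fun σ x => ?_)
    (by rw [e1, e2]; exact hE)
  rw [hc]
  cases hE' : E σ x <;> simp [hE', eq_comm]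

end FA.FriedbergMuchnik
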